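import Fermat.Agent.S36.Val.ValOver
import Fermat.Agent.S36.Geo.HIndep

/-!
# S36/Geo/HTower/Defs : the horizontal valuation `H_e`, abstractly

`K ⊆ E ⊆ F` fields, `A` a valuation subring of `K` of residue characteristic `q`, `VE` a valuation
subring of `E` over `A` whose residue field is `k(ȳ)`, `ȳ` transcendental.  `a ≠ b ∈ F` are two roots
of a monic polynomial `T^(q+1) + ∑_{i ≤ q} γ_i T^i` over `VE.O` which reduces to
`T^(q+1) - ȳ T + c̄`, `c̄ ≠ 0`, and `[F : E] ≤ q (q+1)`.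

Then `VE` has exactly one extension `V` to `F`; its residue field is `k(ā, b̄)` with
`ā b̄ (b̄ - ā)^(q-1) = c̄`, and `V.O = ⨁ VE.O a^i b^j` (`i ≤ q`, `j < q`).

(In the application: `E` = the MIDDLE copy of the function field of level `M'` in `F` = the function
field of level `q² M'`, `VE` = the Gauss point of the disc `|x₁| ≤ |ϖ|^q` around the supersingular point
`e`, `ϖ^(q+1) = q`, `y = x₁/ϖ^q`, `a = x₀/ϖ`, `b = x₂/ϖ`, the polynomial is `P₁(ϖ T)/ϖ^(q+1)`,
`P₁(T) = (T - x₁^q)(T^q - x₁) + q ∑ r_k T^k` the Kronecker polynomial, `c = r₀(e)`.)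
-/

set_option autoImplicit false

namespace Fermat.Agent.S36.Geo

open Fermat.Agent.S36.Val Polynomial IntermediateField

variable {K E F : Type*} [Field K] [Field E] [Field F] [Algebra K E] [Algebra E F] [Algebra K F]
  [IsScalarTower K E F]

/-- The hypotheses. -/
structure HTower (A : ValuationSubring K) (VE : ValOver A E) (q : ℕ) (y : E) (c : K) (γ : ℕ → E)
    (a b : F) : Prop where
  c_mem : c ∈ A
  c_unit : c ∉ A.nonunits
  y_mem : y ∈ VE.O
  y_trans : ∀ G : K[X], PrimPoly A G → aeval y G ∉ VE.O.nonunits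
  ratfunc : ∀ f ∈ VE.O, ∃ G H : K[X], IntPoly A G ∧ PrimPoly A H ∧
    f * aeval y H - aeval y G ∈ VE.O.nonunits
  γ0 : γ 0 - algebraMap K E c ∈ VE.O.nonunits
  γ1 : γ 1 + y ∈ VE.O.nonunits
  γi : ∀ i, 2 ≤ i → i ≤ q → γ i ∈ VE.O.nonunits
  root_a : a ^ (q + 1) + ∑ i ∈ Finset.range (q + 1), algebraMap E F (γ i) * a ^ i = 0
  root_b : b ^ (q + 1) + ∑ i ∈ Finset.range (q + 1), algebraMap E F (γ i) * b ^ i = 0
  a_ne_b : a ≠ b
  finite : FiniteDimensional E F
  finrank_le : Module.finrank E F ≤ q * (q + 1)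

variable {A : ValuationSubring K} {VE : ValOver A E} {q : ℕ} [Fact q.Prime]
  [CharP (IsLocalRing.ResidueField ↥A) q] {y : E} {c : K} {γ : ℕ → E} {a b : F}

/-- the monomials `a^i b^j`. -/
def monom (q : ℕ) (a b : F) (ij : Fin (q + 1) × Fin q) : F := a ^ (ij.1 : ℕ) * b ^ (ij.2 : ℕ)

end Fermat.Agent.S36.Geo
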