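import Fermat.Agent.S36.Geo.HTower.Red

/-!
# S36/Geo/HTower/Eq : the equation `ā b̄ (b̄ - ā)^(q-1) = c̄`
-/

set_option autoImplicit false

namespace Fermat.Agent.S36.Geo

open Fermat.Agent.S36.Val Polynomial IntermediateField

/-- `∑_{m < q} x^m y^(q-1-m) = (x - y)^(q-1)` in a field of characteristic `q`. -/
theorem HTower_geom_sum₂_char {L : Type*} [Field L] (q : ℕ) [Fact q.Prime] [CharP L q] (x y : L) :
    ∑ m ∈ Finset.range q, x ^ m * y ^ (q - 1 - m) = (x - y) ^ (q - 1) := by
  have hq : 0 < q := (Fact.out : q.Prime).pos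
  by_cases hxy : x = y
  · subst hxy
    have h1 : ∀ m ∈ Finset.range q, x ^ m * x ^ (q - 1 - m) = x ^ (q - 1) := by
      intro m hm
      rw [← pow_add]
      congr 1
      have := Finset.mem_range.1 hm
      omega
    rw [Finset.sum_congr rfl h1, Finset.sum_const, Finset.card_range, nsmul_eq_mul,
      CharP.cast_eq_zero, zero_mul, sub_self, zero_pow]
    have := (Fact.out : q.Prime).two_le
    omega
  · have hne : x - y ≠ 0 := sub_ne_zero.2 hxy
    apply mul_right_cancel₀ hne
    rw [geom_sum₂_mul, ← pow_succ, Nat.sub_add_cancel hq, sub_pow_char]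

variable {K E F : Type*} [Field K] [Field E] [Field F] [Algebra K E] [Algebra E F] [Algebra K F]
  [IsScalarTower K E F]
variable {A : ValuationSubring K} {VE : ValOver A E} {q : ℕ} [Fact q.Prime]
  [CharP (IsLocalRing.ResidueField ↥A) q] {y : E} {c : K} {γ : ℕ → E} {a b : F}

namespace HTower

section

variable (h : HTower A VE q y c γ a b) (V : ValOver A F) (hV : V.O.comap (algebraMap E F) = VE.O)

include h hV

omit [Fact q.Prime] [CharP (IsLocalRing.ResidueField ↥A) q] in
/-- `ȳ = ∑_{m ≤ q} b̄^m ā^(q-m)`. -/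
theorem red_y_eq_sum : V.red (algebraMap E F y) =
    ∑ m ∈ Finset.range (q + 1), V.red b ^ m * V.red a ^ (q - m) := by
  classical
  have ha := h.a_mem V hV
  have hb := h.b_mem V hV
  have hmemE : ∀ f : E, f ∈ VE.O → algebraMap E F f ∈ V.O := by
    intro f hf
    rw [← hV] at hf
    exact hf
  have hnonE : ∀ f : E, f ∈ VE.O.nonunits → algebraMap E F f ∈ V.O.nonunits := by
    intro f hf
    rw [← hV] at hf
    exact (mem_nonunits_comap_iff _ _ _).1 hf
  -- everything inside the ring `V.O`
  set a' : ↥V.O := ⟨a, ha⟩ with ha'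
  set b' : ↥V.O := ⟨b, hb⟩ with hb'
  set y' : ↥V.O := ⟨algebraMap E F y, hmemE y h.y_mem⟩ with hy'
  let g : ℕ → ↥V.O := fun i =>
    if hi : i ≤ q then ⟨algebraMap E F (γ i), hmemE _ (h.γ_mem i hi)⟩ else 0
  have hg : ∀ i, i ≤ q → ((g i : ↥V.O) : F) = algebraMap E F (γ i) := by
    intro i hi
    simp only [g, dif_pos hi]
  have hroot : ∀ z : ↥V.O, (z : F) ^ (q + 1) +
      ∑ i ∈ Finset.range (q + 1), algebraMap E F (γ i) * (z : F) ^ i = 0 →
      z ^ (q + 1) + ∑ i ∈ Finset.range (q + 1), g i * z ^ i = 0 := by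
    intro z hz
    apply Subtype.ext
    push_cast
    rw [← hz]
    congr 1
    apply Finset.sum_congr rfl
    intro i hi
    rw [hg i (Nat.lt_succ_iff.1 (Finset.mem_range.1 hi))]
  have hra := hroot a' h.root_a
  have hrb := hroot b' h.root_b
  have hne : b' - a' ≠ 0 := by
    intro h0
    apply h.a_ne_b
    have := congrArg Subtype.val (sub_eq_zero.1 h0)
    exact this.symm
  -- divide by `b - a`
  have hdiv : (∑ m ∈ Finset.range (q + 1), b' ^ m * a' ^ (q + 1 - 1 - m) +
      ∑ i ∈ Finset.range (q + 1), g i * ∑ m ∈ Finset.range i, b' ^ m * a' ^ (i - 1 - m)) = 0 := by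
    apply (mul_eq_zero.1 (?_ : (∑ m ∈ Finset.range (q + 1), b' ^ m * a' ^ (q + 1 - 1 - m) +
      ∑ i ∈ Finset.range (q + 1), g i * ∑ m ∈ Finset.range i, b' ^ m * a' ^ (i - 1 - m)) *
        (b' - a') = 0)).resolve_right hne
    rw [add_mul, geom_sum₂_mul, Finset.sum_mul]
    have h1 : ∀ i ∈ Finset.range (q + 1),
        g i * (∑ m ∈ Finset.range i, b' ^ m * a' ^ (i - 1 - m)) * (b' - a') =
          g i * b' ^ i - g i * a' ^ i := by
      intro i _
      rw [mul_assoc, geom_sum₂_mul, mul_sub]
    rw [Finset.sum_congr rfl h1, Finset.sum_sub_distrib]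
    linear_combination hrb - hra
  -- reduce
  have hres := congrArg V.res hdiv
  rw [map_add, map_zero, map_sum, map_sum] at hres
  have hg0 : ∀ i ∈ Finset.range (q + 1), i ≠ 1 →
      V.res (g i * ∑ m ∈ Finset.range i, b' ^ m * a' ^ (i - 1 - m)) = 0 := by
    intro i hi hi1
    have hiq : i ≤ q := Nat.lt_succ_iff.1 (Finset.mem_range.1 hi)
    rcases Nat.eq_zero_or_pos i with rfl | hpos
    · simp
    · have h2 : 2 ≤ i := by omega
      have h3 : V.res (g i) = 0 := by
        have h4 : ((g i : ↥V.O) : F) ∈ V.O.nonunits := by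
          rw [hg i hiq]
          exact hnonE _ (h.γi i h2 hiq)
        have h5 := (V.red_eq_zero_iff (g i).2).2 h4
        rwa [V.red_of_mem (g i).2] at h5
      rw [map_mul, h3, zero_mul]
  by_cases hq0 : 1 ≤ q
  · have h1mem : 1 ∈ Finset.range (q + 1) := Finset.mem_range.2 (by omega)
    rw [Finset.sum_eq_single_of_mem 1 h1mem hg0] at hres
    have hg1 : V.res (g 1) = - V.res y' := by
      have h4 : ((g 1 + y' : ↥V.O) : F) ∈ V.O.nonunits := by
        push_cast
        rw [hg 1 hq0, ← map_add]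
        exact hnonE _ h.γ1
      have h5 := (V.red_eq_zero_iff (g 1 + y').2).2 h4
      rw [V.red_of_mem (g 1 + y').2] at h5
      have h6 : V.res (g 1 + y') = 0 := h5
      rw [map_add] at h6
      exact eq_neg_of_add_eq_zero_left h6
    rw [map_mul, hg1] at hres
    simp only [Finset.range_one, Finset.sum_singleton, pow_zero, Nat.sub_self, mul_one, map_one,
      map_mul, map_pow, Nat.add_sub_cancel] at hres
    rw [V.red_of_mem (hmemE y h.y_mem), V.red_of_mem ha, V.red_of_mem hb]
    linear_combination -hres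
  · exfalso
    -- `q = 0`: then `a = b = - γ 0`
    have hq' : q = 0 := by omega
    subst hq'
    apply h.a_ne_b
    have e1 := h.root_a
    have e2 := h.root_b
    simp at e1 e2
    linear_combination e1 - e2

/-- (T2) **the equation of `H_e`.**  Divide `root_b - root_a` by `b - a`:
`∑_{m ≤ q} b^m a^(q-m) + γ_1 + ∑_{2 ≤ i ≤ q} γ_i (…) = 0`; reduce; use `red_root_a` to eliminate `ȳ`, and
`∑_{m < q} b^m a^(q-1-m) = (b - a)^(q-1)` in characteristic `q`
(`Commute.geom_sum₂_mul`/`geom_sum₂_mul` and `sub_pow_char`; if `b̄ = ā` both sides are `q ā^(q-1) = 0`,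
`0^(q-1) = 0`... treat via the polynomial identity in `(ZMod q)[X,Y]` or by cases). -/
theorem isHCurve : IsHCurve (IsLocalRing.ResidueField ↥A) q
    (IsLocalRing.residue ↥A ⟨c, h.c_mem⟩) (V.red a) (V.red b) := by
  have hq : 0 < q := (Fact.out : q.Prime).pos
  have : CharP V.Res q :=
    charP_of_injective_algebraMap (algebraMap (IsLocalRing.ResidueField ↥A) V.Res).injective q
  have hc : IsLocalRing.residue ↥A ⟨c, h.c_mem⟩ ≠ 0 := by
    intro h0
    rw [IsLocalRing.residue_eq_zero_iff] at h0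
    exact h.c_unit ((ValuationSubring.mem_nonunits_iff_exists_mem_maximalIdeal).2 ⟨h.c_mem, h0⟩)
  have hroot := h.red_root_a V hV
  have hcF : algebraMap (IsLocalRing.ResidueField ↥A) V.Res
      (IsLocalRing.residue ↥A ⟨c, h.c_mem⟩) ≠ 0 := by
    rwa [Ne, map_eq_zero]
  have ha0 : V.red a ≠ 0 := by
    intro h0
    rw [h0] at hroot
    apply hcF
    simpa using hroot
  refine ⟨hc, ?_, ?_⟩
  · -- transcendence
    intro halg
    apply h.trans_red_y V hV
    have hy : V.red (algebraMap E F y) = (V.red a ^ (q + 1) +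
        algebraMap (IsLocalRing.ResidueField ↥A) V.Res
          (IsLocalRing.residue ↥A ⟨c, h.c_mem⟩)) * (V.red a)⁻¹ := by
      field_simp
      linear_combination -hroot
    rw [hy]
    exact ((halg.pow _).add (isAlgebraic_algebraMap _)).mul halg.inv
  · have hy := h.red_y_eq_sum V hV
    rw [Finset.sum_range_succ'] at hy
    have h1 : ∀ m ∈ Finset.range q, V.red b ^ (m + 1) * V.red a ^ (q - (m + 1)) =
        V.red b * (V.red b ^ m * V.red a ^ (q - 1 - m)) := by
      intro m _
      rw [pow_succ, Nat.sub_sub, add_comm 1 m]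
      ring
    rw [Finset.sum_congr rfl h1, ← Finset.mul_sum, HTower_geom_sum₂_char] at hy
    rw [hy] at hroot
    simp only [pow_zero, one_mul, Nat.sub_zero] at hroot
    linear_combination -hroot

/-- `ȳ = ā^q + c̄/ā`. -/
theorem red_y_eq : V.red (algebraMap E F y) = (h.isHCurve V hV).y := by
  have hroot := h.red_root_a V hV
  have hH := h.isHCurve V hV
  have ha0 : V.red a ≠ 0 := by
    intro h0
    apply hH.trans
    rw [h0]
    exact isAlgebraic_zero
  unfold IsHCurve.y
  field_simp
  linear_combination -hroot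

end

end HTower

end Fermat.Agent.S36.Geo
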