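import Fermat.Agent.S36.Geo.HTower.Eq
import Fermat.Agent.S36.Val.ResIndep

/-!
# S36/Geo/HTower/Indep : `V.O = ⨁ VE.O a^i b^j`, residue field `k(ā,b̄)`
-/

set_option autoImplicit false

namespace Fermat.Agent.S36.Geo

open Fermat.Agent.S36.Val Polynomial IntermediateField

variable {K E F : Type*} [Field K] [Field E] [Field F] [Algebra K E] [Algebra E F] [Algebra K F]
  [IsScalarTower K E F]
variable {A : ValuationSubring K} {VE : ValOver A E} {q : ℕ} [Fact q.Prime]
  [CharP (IsLocalRing.ResidueField ↥A) q] {y : E} {c : K} {γ : ℕ → E} {a b : F}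

namespace HTower

omit [Fact q.Prime] [CharP (IsLocalRing.ResidueField ↥A) q] [Algebra E F] [IsScalarTower K E F] in
theorem Indep_red_pow (V : ValOver A F) {f : F} (hf : f ∈ V.O) (n : ℕ) :
    V.red (f ^ n) = V.red f ^ n := by
  rw [V.red_of_mem hf, V.red_of_mem (pow_mem hf n), ← map_pow]
  rfl

omit [Fact q.Prime] [CharP (IsLocalRing.ResidueField ↥A) q] [Algebra E F] [IsScalarTower K E F] in
theorem Indep_red_sum (V : ValOver A F) {ι : Type*} (s : Finset ι) (f : ι → F)
    (hf : ∀ i ∈ s, f i ∈ V.O) : V.red (∑ i ∈ s, f i) = ∑ i ∈ s, V.red (f i) := by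
  classical
  induction s using Finset.induction_on with
  | empty =>
    rw [Finset.sum_empty, Finset.sum_empty, V.red_of_mem (zero_mem _)]
    exact map_zero V.res
  | insert i s hi ih =>
    rw [Finset.sum_insert hi, Finset.sum_insert hi,
      V.red_add (hf i (Finset.mem_insert_self i s))
        (sum_mem fun j hj => hf j (Finset.mem_insert_of_mem hj)),
      ih fun j hj => hf j (Finset.mem_insert_of_mem hj)]

section

variable (h : HTower A VE q y c γ a b) (V : ValOver A F) (hV : V.O.comap (algebraMap E F) = VE.O)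

include h hV

omit [Fact q.Prime] [CharP (IsLocalRing.ResidueField ↥A) q] in
theorem Indep_monom_mem (ij : Fin (q + 1) × Fin q) : monom q a b ij ∈ V.O :=
  V.O.mul_mem _ _ (pow_mem (h.a_mem V hV) _) (pow_mem (h.b_mem V hV) _)

omit [Fact q.Prime] [CharP (IsLocalRing.ResidueField ↥A) q] [IsScalarTower K E F] h in
theorem Indep_algebraMap_mem {f : E} (hf : f ∈ VE.O) : algebraMap E F f ∈ V.O := by
  rw [← ValuationSubring.mem_comap, hV]
  exact hf

omit [Fact q.Prime] [CharP (IsLocalRing.ResidueField ↥A) q] in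
theorem Indep_red_sum_monom (u : Fin (q + 1) × Fin q → E) (hu : ∀ ij, u ij ∈ VE.O) :
    V.red (∑ ij, u ij • monom q a b ij) =
      ∑ ij : Fin (q + 1) × Fin q, V.red (algebraMap E F (u ij)) *
        (V.red a ^ (ij.1 : ℕ) * V.red b ^ (ij.2 : ℕ)) := by
  have hm := h.Indep_monom_mem V hV
  rw [Indep_red_sum V]
  · refine Finset.sum_congr rfl fun ij _ => ?_
    rw [Algebra.smul_def, V.red_mul (Indep_algebraMap_mem V hV (hu ij)) (hm ij)]
    congr 1
    unfold monom
    rw [V.red_mul (pow_mem (h.a_mem V hV) _) (pow_mem (h.b_mem V hV) _),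
      Indep_red_pow V (h.a_mem V hV), Indep_red_pow V (h.b_mem V hV)]
  · intro ij _
    rw [Algebra.smul_def]
    exact V.O.mul_mem _ _ (Indep_algebraMap_mem V hV (hu ij)) (hm ij)

/-- (T3) the monomials are residually independent (`IsHCurve.indep`, `red_mem_adjoin`). -/
theorem resIndep : ResIndep VE.O V.O (monom q a b) := by
  refine ⟨h.Indep_monom_mem V hV, fun u hu hsum ij => ?_⟩
  have hsumO : ∑ ij, u ij • monom q a b ij ∈ V.O := ValuationSubring.nonunits_subset hsum
  have h0 := (V.red_eq_zero_iff hsumO).mpr hsum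
  rw [h.Indep_red_sum_monom V hV u hu] at h0
  have hz := (h.isHCurve V hV).indep (fun ij => V.red (algebraMap E F (u ij)))
    (fun ij => by
      rw [← h.red_y_eq V hV]
      exact h.red_mem_adjoin V hV (u ij) (hu ij)) h0 ij
  have hz' : V.red (algebraMap E F (u ij)) = 0 := hz
  rw [V.red_eq_zero_iff (Indep_algebraMap_mem V hV (hu ij)),
    ← ResIndep_mem_nonunits_comap, hV] at hz'
  exact hz'

/-- (T4) they span. -/
theorem span_monom : Submodule.span E (Set.range (monom q a b)) = ⊤ := by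
  have := h.finite
  refine (h.resIndep V hV).span_eq_top hV ?_
  rw [Fintype.card_prod, Fintype.card_fin, Fintype.card_fin, mul_comm]
  exact h.finrank_le

/-- (T5) the residue field is `k(ā, b̄)`. -/
theorem adjoin_eq_top : (IsLocalRing.ResidueField ↥A)⟮V.red a, V.red b⟯ = ⊤ := by
  rw [eq_top_iff]
  intro z _
  obtain ⟨⟨f, hf⟩, rfl⟩ := V.res_surjective z
  rw [← V.red_of_mem hf]
  have hx : f ∈ Submodule.span E (Set.range (monom q a b)) :=
    (h.span_monom V hV) ▸ Submodule.mem_top
  obtain ⟨u, rfl⟩ := (Submodule.mem_span_range_iff_exists_fun E).mp hx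
  have hu : ∀ ij, u ij ∈ VE.O := ((h.resIndep V hV).sum_mem_iff hV u).mp hf
  rw [h.Indep_red_sum_monom V hV u hu]
  have ha : V.red a ∈ (IsLocalRing.ResidueField ↥A)⟮V.red a, V.red b⟯ :=
    IntermediateField.subset_adjoin _ _ (Set.mem_insert _ _)
  have hb : V.red b ∈ (IsLocalRing.ResidueField ↥A)⟮V.red a, V.red b⟯ :=
    IntermediateField.subset_adjoin _ _ (Set.mem_insert_of_mem _ (Set.mem_singleton _))
  have hy : V.red (algebraMap E F y) ∈ (IsLocalRing.ResidueField ↥A)⟮V.red a, V.red b⟯ := by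
    rw [h.red_y_eq V hV]
    unfold IsHCurve.y
    exact add_mem (pow_mem ha _) (div_mem (IntermediateField.algebraMap_mem _ _) ha)
  have hle : (IsLocalRing.ResidueField ↥A)⟮V.red (algebraMap E F y)⟯ ≤
      (IsLocalRing.ResidueField ↥A)⟮V.red a, V.red b⟯ := by
    rw [IntermediateField.adjoin_simple_le_iff]
    exact hy
  refine sum_mem fun ij _ => mul_mem (hle (h.red_mem_adjoin V hV (u ij) (hu ij))) ?_
  exact mul_mem (pow_mem ha _) (pow_mem hb _)

/-- explicit description of `V.O`. -/
theorem mem_iff (u : Fin (q + 1) × Fin q → E) :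
    ∑ ij, u ij • monom q a b ij ∈ V.O ↔ ∀ ij, u ij ∈ VE.O := by
  exact (h.resIndep V hV).sum_mem_iff hV u

end

end HTower

end Fermat.Agent.S36.Geo
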