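import Fermat.Agent.S36.Geo.HTower.Defs
import Fermat.Agent.GAL.RED.Basic

/-!
# S36/Geo/HTower/Red : integrality of `a`, `b`; residues
-/

set_option autoImplicit false
set_option linter.unusedSectionVars false

namespace Fermat.Agent.S36.Geo

open Fermat.Agent.S36.Val Polynomial IntermediateField

variable {K E F : Type*} [Field K] [Field E] [Field F] [Algebra K E] [Algebra E F] [Algebra K F]
  [IsScalarTower K E F]
variable {A : ValuationSubring K} {VE : ValOver A E} {q : ℕ} [Fact q.Prime]
  [CharP (IsLocalRing.ResidueField ↥A) q] {y : E} {c : K} {γ : ℕ → E} {a b : F}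

namespace HTower

/-! ### helper lemmas -/

omit [Algebra K E] [IsScalarTower K E F] in
theorem Red_mem_iff {OE : ValuationSubring E} (V : ValOver A F)
    (hV : V.O.comap (algebraMap E F) = OE) (x : E) : algebraMap E F x ∈ V.O ↔ x ∈ OE := by
  rw [← hV]; rfl

omit [Algebra K E] [IsScalarTower K E F] in
theorem Red_mem_nonunits_iff {OE : ValuationSubring E} (V : ValOver A F)
    (hV : V.O.comap (algebraMap E F) = OE) (x : E) :
    algebraMap E F x ∈ V.O.nonunits ↔ x ∈ OE.nonunits := by
  rw [← hV, mem_nonunits_comap_iff]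

omit [Algebra K E] [IsScalarTower K E F] in
theorem Red_red_eq_zero {OE : ValuationSubring E} (V : ValOver A F)
    (hV : V.O.comap (algebraMap E F) = OE) {x : E} (hx : x ∈ OE.nonunits) :
    V.red (algebraMap E F x) = 0 := by
  have h1 := (Red_mem_nonunits_iff V hV x).2 hx
  exact (V.red_eq_zero_iff (V.O.nonunits_subset h1)).2 h1

theorem Red_exists_lift {G : K[X]} (hG : IntPoly A G) : ∃ P : (↥A)[X], P.map A.subtype = G := by
  have h : G ∈ Polynomial.lifts A.subtype := by
    rw [Polynomial.lifts_iff_coeff_lifts]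
    intro n
    exact ⟨⟨G.coeff n, hG n⟩, rfl⟩
  exact (Polynomial.mem_lifts G).1 h

/-- reduction of a polynomial in `y` with coefficients in `A`. -/
theorem Red_red_aeval (V : ValOver A F) {y : E} (hy : algebraMap E F y ∈ V.O) (P : (↥A)[X]) :
    V.red (algebraMap E F (aeval y (P.map A.subtype))) =
      aeval (V.red (algebraMap E F y)) (P.map (IsLocalRing.residue ↥A)) := by
  rw [← Polynomial.aeval_algebraMap_apply]
  exact V.redData.red_aeval_map P hy

theorem Red_aeval_mem (V : ValOver A F) {y : E} (hy : algebraMap E F y ∈ V.O) (P : (↥A)[X]) :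
    algebraMap E F (aeval y (P.map A.subtype)) ∈ V.O := by
  rw [← Polynomial.aeval_algebraMap_apply]
  exact V.redData.aeval_map_mem P hy

/-! ### the statements -/

omit [Fact q.Prime] [CharP (IsLocalRing.ResidueField ↥A) q] in
theorem γ_mem (h : HTower A VE q y c γ a b) (i : ℕ) (hi : i ≤ q) : γ i ∈ VE.O := by
  rcases Nat.lt_or_ge i 2 with h2 | h2
  · interval_cases i
    · have h1 := VE.O.add_mem _ _ (VE.O.nonunits_subset h.γ0) (VE.algebraMap_mem h.c_mem)
      rwa [sub_add_cancel] at h1
    · have h1 := VE.O.sub_mem (VE.O.nonunits_subset h.γ1) h.y_mem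
      rwa [add_sub_cancel_right] at h1
  · exact VE.O.nonunits_subset (h.γi i h2 hi)

omit [Fact q.Prime] [CharP (IsLocalRing.ResidueField ↥A) q] in
theorem Red_one_le (h : HTower A VE q y c γ a b) : 1 ≤ q := by
  have := h.finite
  have h1 : 0 < Module.finrank E F := Module.finrank_pos
  have h2 := h.finrank_le
  rcases Nat.eq_zero_or_pos q with rfl | hq
  · omega
  · exact hq

section

variable (h : HTower A VE q y c γ a b) (V : ValOver A F) (hV : V.O.comap (algebraMap E F) = VE.O)

include h hV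

omit [Fact q.Prime] [CharP (IsLocalRing.ResidueField ↥A) q] in
theorem Red_root_mem {x : F}
    (hx : x ^ (q + 1) + ∑ i ∈ Finset.range (q + 1), algebraMap E F (γ i) * x ^ i = 0) :
    x ∈ V.O := by
  refine mem_of_monic_root V.O q (fun i => if i ≤ q then algebraMap E F (γ i) else 0) ?_ x ?_
  · intro i
    by_cases hi : i ≤ q
    · simp only [hi, if_true]
      exact (Red_mem_iff V hV _).2 (h.γ_mem i hi)
    · simp only [hi, if_false]
      exact V.O.zero_mem
  · rw [← hx]
    congr 1
    refine Finset.sum_congr rfl fun i hi => ?_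
    rw [if_pos (Nat.lt_succ_iff.1 (Finset.mem_range.1 hi))]

omit [Fact q.Prime] [CharP (IsLocalRing.ResidueField ↥A) q] in
/-- (T1) `Val.mem_of_monic_root`. -/
theorem a_mem : a ∈ V.O := Red_root_mem h V hV h.root_a

omit [Fact q.Prime] [CharP (IsLocalRing.ResidueField ↥A) q] in
theorem b_mem : b ∈ V.O := Red_root_mem h V hV h.root_b

omit [Fact q.Prime] [CharP (IsLocalRing.ResidueField ↥A) q] in
theorem Red_y_mem : algebraMap E F y ∈ V.O := (Red_mem_iff V hV y).2 h.y_mem

omit [Fact q.Prime] [CharP (IsLocalRing.ResidueField ↥A) q] in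
theorem Red_red_γ0 : V.red (algebraMap E F (γ 0)) =
    algebraMap (IsLocalRing.ResidueField ↥A) V.Res (IsLocalRing.residue ↥A ⟨c, h.c_mem⟩) := by
  have h1 := Red_red_eq_zero V hV h.γ0
  have hc : algebraMap E F (algebraMap K E c) ∈ V.O :=
    (Red_mem_iff V hV _).2 (VE.algebraMap_mem h.c_mem)
  rw [map_sub, show V.red _ = V.redData.red _ from rfl,
    V.redData.red_sub ((Red_mem_iff V hV _).2 (h.γ_mem 0 (Nat.zero_le _))) hc, sub_eq_zero] at h1
  rw [← V.red_algebraMap h.c_mem, IsScalarTower.algebraMap_apply K E F]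
  exact h1

omit [Fact q.Prime] [CharP (IsLocalRing.ResidueField ↥A) q] in
theorem Red_red_γ1 : V.red (algebraMap E F (γ 1)) = - V.red (algebraMap E F y) := by
  have h1 := Red_red_eq_zero V hV h.γ1
  rw [map_add, V.red_add ((Red_mem_iff V hV _).2 (h.γ_mem 1 h.Red_one_le)) (Red_y_mem h V hV)] at h1
  exact eq_neg_of_add_eq_zero_left h1

omit [Fact q.Prime] [CharP (IsLocalRing.ResidueField ↥A) q] in
/-- reduction of a root. -/
theorem Red_red_root {x : F}
    (hx : x ^ (q + 1) + ∑ i ∈ Finset.range (q + 1), algebraMap E F (γ i) * x ^ i = 0) :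
    V.red x ^ (q + 1) - V.red (algebraMap E F y) * V.red x +
    algebraMap (IsLocalRing.ResidueField ↥A) V.Res (IsLocalRing.residue ↥A ⟨c, h.c_mem⟩) = 0 := by
  have hxO : x ∈ V.O := Red_root_mem h V hV hx
  have hγ : ∀ i ∈ Finset.range (q + 1), algebraMap E F (γ i) ∈ V.O := fun i hi =>
    (Red_mem_iff V hV _).2 (h.γ_mem i (Nat.lt_succ_iff.1 (Finset.mem_range.1 hi)))
  have hterm : ∀ i ∈ Finset.range (q + 1), algebraMap E F (γ i) * x ^ i ∈ V.O := fun i hi =>
    V.O.mul_mem _ _ (hγ i hi) (pow_mem hxO i)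
  have h0 : V.red (0 : F) = 0 := (V.red_eq_zero_iff V.O.zero_mem).2 (by
    rw [ValuationSubring.mem_nonunits_iff]; simp)
  have key := congrArg V.red hx
  rw [h0, V.red_add (pow_mem hxO _) (sum_mem hterm), show V.red (x ^ (q + 1)) = V.red x ^ (q + 1)
    from V.redData.red_pow x _, show V.red (∑ i ∈ Finset.range (q + 1), algebraMap E F (γ i) * x ^ i)
      = ∑ i ∈ Finset.range (q + 1), V.red (algebraMap E F (γ i) * x ^ i)
    from V.redData.red_sum _ _ hterm] at key
  have hsum : ∑ i ∈ Finset.range (q + 1), V.red (algebraMap E F (γ i) * x ^ i) =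
      - V.red (algebraMap E F y) * V.red x +
      algebraMap (IsLocalRing.ResidueField ↥A) V.Res (IsLocalRing.residue ↥A ⟨c, h.c_mem⟩) := by
    have hmul : ∀ i ∈ Finset.range (q + 1), V.red (algebraMap E F (γ i) * x ^ i) =
        V.red (algebraMap E F (γ i)) * V.red x ^ i := fun i hi => by
      rw [V.red_mul (hγ i hi) (pow_mem hxO i)]
      congr 1
      exact V.redData.red_pow x i
    rw [Finset.sum_congr rfl hmul]
    obtain ⟨m, hm⟩ : ∃ m, q = m + 1 := ⟨q - 1, by have := h.Red_one_le; omega⟩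
    have hr : Finset.range (q + 1) = Finset.range (m + 1 + 1) := by rw [hm]
    rw [← Red_red_γ0 h V hV, ← Red_red_γ1 h V hV, hr, Finset.sum_range_succ',
      Finset.sum_range_succ', Finset.sum_eq_zero, pow_zero, pow_one, zero_add, mul_one]
    intro i hi
    rw [Red_red_eq_zero V hV (h.γi (i + 1 + 1) (by omega)
      (by have := Finset.mem_range.1 hi; omega)), zero_mul]
  rw [hsum] at key
  linear_combination key

omit [Fact q.Prime] [CharP (IsLocalRing.ResidueField ↥A) q] in
/-- reduction of `root_a`. -/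
theorem red_root_a : V.red a ^ (q + 1) - V.red (algebraMap E F y) * V.red a +
    algebraMap (IsLocalRing.ResidueField ↥A) V.Res (IsLocalRing.residue ↥A ⟨c, h.c_mem⟩) = 0 :=
  Red_red_root h V hV h.root_a

omit [Fact q.Prime] [CharP (IsLocalRing.ResidueField ↥A) q] in
/-- the reduction of a primitive polynomial in `y` does not vanish. -/
theorem Red_aeval_ne_zero (P : (↥A)[X]) (hP : P.map (IsLocalRing.residue ↥A) ≠ 0) :
    aeval (V.red (algebraMap E F y)) (P.map (IsLocalRing.residue ↥A)) ≠ 0 := by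
  intro h0
  have hprim : PrimPoly A (P.map A.subtype) := by
    refine ⟨fun i => ?_, ?_⟩
    · rw [Polynomial.coeff_map]; exact (P.coeff i).2
    · obtain ⟨i, hi⟩ : ∃ i, (P.map (IsLocalRing.residue ↥A)).coeff i ≠ 0 := by
        by_contra hcon
        push Not at hcon
        exact hP (Polynomial.ext fun i => by rw [hcon i, Polynomial.coeff_zero])
      refine ⟨i, fun hmem => hi ?_⟩
      rw [Polynomial.coeff_map] at hmem ⊢
      rw [IsLocalRing.residue_eq_zero_iff]
      obtain ⟨_, h2⟩ := ValuationSubring.mem_nonunits_iff_exists_mem_maximalIdeal.1 hmem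
      exact h2
  apply h.y_trans _ hprim
  rw [← Red_mem_nonunits_iff V hV,
    ← V.red_eq_zero_iff (Red_aeval_mem V (Red_y_mem h V hV) P), Red_red_aeval V (Red_y_mem h V hV)]
  exact h0

omit [Fact q.Prime] [CharP (IsLocalRing.ResidueField ↥A) q] in
/-- `ȳ` is transcendental over `k` (from `y_trans`: lift a polynomial over `k` to `A`). -/
theorem trans_red_y : Transcendental (IsLocalRing.ResidueField ↥A) (V.red (algebraMap E F y)) := by
  rw [transcendental_iff]
  intro p hp
  by_contra hp0
  obtain ⟨P, rfl⟩ := Polynomial.map_surjective (IsLocalRing.residue ↥A)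
    IsLocalRing.residue_surjective p
  exact Red_aeval_ne_zero h V hV P hp0 hp

omit [Fact q.Prime] [CharP (IsLocalRing.ResidueField ↥A) q] in
/-- the residues of the elements of `VE.O` lie in `k(ȳ)` (from `ratfunc`). -/
theorem red_mem_adjoin (f : E) (hf : f ∈ VE.O) :
    V.red (algebraMap E F f) ∈ (IsLocalRing.ResidueField ↥A)⟮V.red (algebraMap E F y)⟯ := by
  obtain ⟨G, H, hG, hH, hfGH⟩ := h.ratfunc f hf
  obtain ⟨P, rfl⟩ := Red_exists_lift hG
  obtain ⟨Q, rfl⟩ := Red_exists_lift hH.1
  have hy := Red_y_mem h V hV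
  have hfO : algebraMap E F f ∈ V.O := (Red_mem_iff V hV f).2 hf
  have hQ0 : Q.map (IsLocalRing.residue ↥A) ≠ 0 := by
    obtain ⟨i, hi⟩ := hH.2
    intro h0
    apply hi
    have h1 : (Q.map (IsLocalRing.residue ↥A)).coeff i = 0 := by rw [h0, Polynomial.coeff_zero]
    rw [Polynomial.coeff_map, IsLocalRing.residue_eq_zero_iff] at h1
    rw [Polynomial.coeff_map]
    exact ValuationSubring.mem_nonunits_iff_exists_mem_maximalIdeal.2 ⟨(Q.coeff i).2, h1⟩
  have hne := Red_aeval_ne_zero h V hV Q hQ0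
  have h1 := Red_red_eq_zero V hV hfGH
  rw [map_sub, map_mul, show V.red _ = V.redData.red _ from rfl,
    V.redData.red_sub (V.O.mul_mem _ _ hfO (Red_aeval_mem V hy Q)) (Red_aeval_mem V hy P),
    sub_eq_zero] at h1
  have h2 : V.red (algebraMap E F f) * aeval (V.red (algebraMap E F y))
      (Q.map (IsLocalRing.residue ↥A)) =
      aeval (V.red (algebraMap E F y)) (P.map (IsLocalRing.residue ↥A)) := by
    rw [← Red_red_aeval V hy Q, ← Red_red_aeval V hy P, ← V.red_mul hfO (Red_aeval_mem V hy Q)]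
    exact h1
  have hmem : ∀ p : (IsLocalRing.ResidueField ↥A)[X], aeval (V.red (algebraMap E F y)) p ∈
      (IsLocalRing.ResidueField ↥A)⟮V.red (algebraMap E F y)⟯ := fun p =>
    IntermediateField.algebra_adjoin_le_adjoin _ _ (Polynomial.aeval_mem_adjoin_singleton _ _)
  rw [eq_div_of_mul_eq hne h2]
  exact div_mem (hmem _) (hmem _)

end

end HTower

end Fermat.Agent.S36.Geo
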