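import Fermat.Agent.S36.Geo.HTower.Indep

/-!
# S36/Geo/HTower/Unique : existence and uniqueness of the extension
-/

set_option autoImplicit false
set_option linter.unusedSectionVars false

namespace Fermat.Agent.S36.Geo

open Fermat.Agent.S36.Val Polynomial IntermediateField

variable {K E F : Type*} [Field K] [Field E] [Field F] [Algebra K E] [Algebra E F] [Algebra K F]
  [IsScalarTower K E F]
variable {A : ValuationSubring K} {VE : ValOver A E} {q : ℕ} [Fact q.Prime]
  [CharP (IsLocalRing.ResidueField ↥A) q] {y : E} {c : K} {γ : ℕ → E} {a b : F}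

namespace HTower

/-- (T6) **existence** (`Val.exists_extension`). -/
theorem exists_valOver (_h : HTower A VE q y c γ a b) :
    ∃ V : ValOver A F, V.O.comap (algebraMap E F) = VE.O := by
  obtain ⟨O, hO⟩ := Val.exists_extension (algebraMap E F) VE.O
  refine ⟨⟨O, ?_⟩, hO⟩
  rw [IsScalarTower.algebraMap_eq K E F, ← ValuationSubring.comap_comap, hO, VE.comap_eq]

/-- (T7) **uniqueness** (`ResIndep.eq_of_span`). -/
theorem valOver_unique (h : HTower A VE q y c γ a b) (V V' : ValOver A F)
    (hV : V.O.comap (algebraMap E F) = VE.O) (hV' : V'.O.comap (algebraMap E F) = VE.O) :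
    V' = V := by
  have h1 : V'.O = V.O :=
    ResIndep.eq_of_span hV hV' (h.resIndep V hV) (h.resIndep V' hV') (h.span_monom V hV)
  exact ValOver.ext' h1

end HTower

end Fermat.Agent.S36.Geo
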